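import Fermat.Agent.DedekindZeroDistribution.Moments

/-!
# The ordinates in an interval

Continuous test functions supported in `0 < v` lie between indicators of symmetrical intervals, so
on the Riemann hypothesis, with `g → ∞` and `n/g → 0`, an interval `[a, b]` holds
`((b - a)/π + o(1)) g` ordinates.
-/

set_option autoImplicit false
set_option linter.style.haveILetI false

noncomputable section

universe u

open NumberField InfinitePlace Module Filter Topology Set MeasureTheory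
open FA.TsfasmanVladut FA.DedekindZeroCount FA.DedekindHadamard
open scoped Real Classical

namespace FA.DedekindZeroDistribution

/-- `∑ m v ψ v`. -/
def testSum (K : Type u) [Field K] [NumberField K] (x : ℝ) (ψ : ℝ → ℝ) : ℝ :=
  ∑' ρ : ℂ, (xiMult K ρ : ℝ) * (bump x 1 ρ * ψ (bump x 1 ρ))

/-- `π⁻¹ ∫ v ψ v du`. -/
def testLim (ψ : ℝ → ℝ) : ℝ := π⁻¹ * ∫ u : ℝ, (1 + u ^ 2)⁻¹ * ψ ((1 + u ^ 2)⁻¹)

variable (K : Type u) [Field K] [NumberField K]

theorem summable_test (hRH : RHFor K) (x : ℝ) {ψ : ℝ → ℝ} {B : ℝ}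
    (hB : ∀ v ∈ Icc (0 : ℝ) 1, |ψ v| ≤ B) :
    Summable fun ρ : ℂ => (xiMult K ρ : ℝ) * (bump x 1 ρ * ψ (bump x 1 ρ)) := by
  refine Summable.of_norm_bounded
    ((summable_bump K hRH x (by norm_num : (1 : ℝ) / 4 < 1)).mul_left B) fun ρ => ?_
  obtain ⟨h0, h1⟩ := bump_one_pos_le x ρ
  rw [Real.norm_eq_abs, abs_mul, abs_mul, Nat.abs_cast, abs_of_pos h0, mul_left_comm B, mul_comm B]
  exact mul_le_mul_of_nonneg_left (mul_le_mul_of_nonneg_left (hB _ ⟨h0.le, h1⟩) h0.le)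
    (Nat.cast_nonneg _)

theorem integrable_test {ψ : ℝ → ℝ} (hψ : ContinuousOn ψ (Icc 0 1)) :
    Integrable fun u : ℝ => (1 + u ^ 2)⁻¹ * ψ ((1 + u ^ 2)⁻¹) := by
  obtain ⟨B, hB⟩ := isCompact_Icc.exists_bound_of_continuousOn hψ
  have hv : ∀ u : ℝ, (1 + u ^ 2)⁻¹ ∈ Icc (0 : ℝ) 1 := fun u =>
    ⟨by positivity, inv_le_one_of_one_le₀ (le_add_of_nonneg_right (sq_nonneg u))⟩
  have hc : Continuous fun u : ℝ => (1 + u ^ 2)⁻¹ :=
    (continuous_const.add (continuous_pow 2)).inv₀ fun u =>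
      (by positivity : (0 : ℝ) < 1 + u ^ 2).ne'
  refine ((integral_inv_add_sq one_pos).1.mul_const B).mono'
    (hc.mul (hψ.comp_continuous hc hv)).aestronglyMeasurable (Eventually.of_forall fun u => ?_)
  rw [norm_mul, Real.norm_of_nonneg (hv u).1]
  exact mul_le_mul_of_nonneg_left (hB _ (hv u)) (hv u).1

theorem testSum_poly (hRH : RHFor K) (x : ℝ) (p : Polynomial ℝ) :
    testSum K x (fun v => p.eval v) =
      ∑ k ∈ Finset.range (p.natDegree + 1), p.coeff k * momentSum K x k := by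
  have hm : ∀ k : ℕ, Summable fun ρ : ℂ => (xiMult K ρ : ℝ) * bump x 1 ρ ^ (k + 1) := fun k =>
    (summable_test K hRH x (ψ := fun v => v ^ k) (B := 1) fun v hv => by
      rw [abs_pow, abs_of_nonneg hv.1]; exact pow_le_one₀ hv.1 hv.2).congr fun ρ => by
        rw [pow_succ']
  refine HasSum.tsum_eq ((hasSum_sum fun k _ => (hm k).hasSum.mul_left _).congr_fun fun ρ => ?_)
  dsimp only
  rw [Polynomial.eval_eq_sum_range, Finset.mul_sum, Finset.mul_sum]
  exact Finset.sum_congr rfl fun k _ => by ring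

theorem testLim_poly (p : Polynomial ℝ) : testLim (fun v => p.eval v) =
    ∑ k ∈ Finset.range (p.natDegree + 1), p.coeff k * momentLim k := by
  simp only [momentLim, testLim, ← integral_const_mul]
  rw [← integral_finsetSum _ fun k _ => ((integrable_moment k).const_mul _).const_mul _]
  refine integral_congr_ae (Eventually.of_forall fun u => ?_)
  dsimp only
  rw [Polynomial.eval_eq_sum_range, Finset.mul_sum, Finset.mul_sum]
  exact Finset.sum_congr rfl fun k _ => by ring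

variable {ι : Type*} {l : Filter ι} (G : ι → Type u) [∀ i, Field (G i)] [∀ i, NumberField (G i)]

/-- **Continuous test functions.** -/
theorem tendsto_testSum (hRH : ∀ i, RHFor (G i)) (hg : Tendsto (fun i => logGenus (G i)) l atTop)
    (hn : Tendsto (fun i => (finrank ℚ (G i) : ℝ) / logGenus (G i)) l (𝓝 0)) (x : ℝ) {ψ : ℝ → ℝ}
    (hψ : ContinuousOn ψ (Icc 0 1)) :
    Tendsto (fun i => testSum (G i) x ψ / logGenus (G i)) l (𝓝 (testLim ψ)) := by
  refine Metric.tendsto_nhds.2 fun ε hε => ?_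
  obtain ⟨M, hM⟩ : ∃ M, M = momentLim 0 + 1 := ⟨_, rfl⟩
  have hM0 : 0 < M := by
    have : 0 ≤ momentLim 0 := mul_nonneg (inv_nonneg.2 Real.pi_pos.le)
      (integral_nonneg fun u => by positivity)
    linarith
  obtain ⟨δ, hδ⟩ : ∃ δ, δ = ε / (4 * M) := ⟨_, rfl⟩
  have hδ0 : 0 < δ := hδ ▸ by positivity
  obtain ⟨p, hp⟩ := exists_polynomial_near_of_continuousOn 0 1 ψ hψ δ hδ0
  obtain ⟨B, hB⟩ := isCompact_Icc.exists_bound_of_continuousOn hψ
  obtain ⟨B', hB'⟩ := isCompact_Icc.exists_bound_of_continuousOn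
    (p.continuous.continuousOn (s := Icc (0 : ℝ) 1))
  have hlim : Tendsto (fun i => testSum (G i) x (fun v => p.eval v) / logGenus (G i)) l
      (𝓝 (testLim fun v => p.eval v)) := by
    rw [testLim_poly]
    refine (tendsto_finsetSum _ fun k _ =>
      (tendsto_momentSum G hRH hg hn x k).const_mul (p.coeff k)).congr fun i => ?_
    rw [testSum_poly (G i) (hRH i), Finset.sum_div]
    exact Finset.sum_congr rfl fun k _ => (mul_div_assoc _ _ _).symm
  have hdiff : |testLim ψ - testLim fun v => p.eval v| ≤ δ * M := by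
    rw [testLim, testLim, ← mul_sub, abs_mul, abs_of_pos (inv_pos.2 Real.pi_pos),
      ← integral_sub (integrable_test hψ) (integrable_test p.continuous.continuousOn)]
    have h : |∫ u : ℝ, ((1 + u ^ 2)⁻¹ * ψ ((1 + u ^ 2)⁻¹) -
        (1 + u ^ 2)⁻¹ * p.eval ((1 + u ^ 2)⁻¹))| ≤ ∫ u : ℝ, δ * ((1 + u ^ 2)⁻¹) ^ (0 + 1) := by
      rw [← Real.norm_eq_abs]
      refine norm_integral_le_of_norm_le ((integrable_moment 0).const_mul δ)
        (Eventually.of_forall fun u => ?_)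
      have hv : 0 ≤ (1 + u ^ 2)⁻¹ := by positivity
      rw [← mul_sub, norm_mul, Real.norm_of_nonneg hv, zero_add, pow_one, mul_comm δ,
        Real.norm_eq_abs, abs_sub_comm]
      exact mul_le_mul_of_nonneg_left
        (hp _ ⟨hv, inv_le_one_of_one_le₀ (le_add_of_nonneg_right (sq_nonneg u))⟩).le hv
    rw [integral_const_mul] at h
    refine (mul_le_mul_of_nonneg_left h (inv_nonneg.2 Real.pi_pos.le)).trans ?_
    rw [mul_left_comm]
    refine mul_le_mul_of_nonneg_left ?_ hδ0.le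
    rw [hM, momentLim]
    linarith
  filter_upwards [Metric.tendsto_nhds.1 hlim (ε / 4) (by linarith),
    (tendsto_momentSum G hRH hg hn x 0).eventually (eventually_lt_nhds (show momentLim 0 < M by
      linarith)), hg.eventually_gt_atTop 0] with i h1 h2 hg0
  have hs : |testSum (G i) x ψ - testSum (G i) x (fun v => p.eval v)| ≤
      δ * momentSum (G i) x 0 := by
    have s1 := summable_test (G i) (hRH i) x (ψ := ψ) fun v hv => hB v hv
    have s2 := summable_test (G i) (hRH i) x (ψ := fun v => p.eval v) fun v hv => hB' v hv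
    rw [testSum, testSum, ← s1.tsum_sub s2, ← Real.norm_eq_abs, momentSum]
    have sm : Summable fun ρ : ℂ => (xiMult (G i) ρ : ℝ) * bump x 1 ρ ^ (0 + 1) := by
      simpa using summable_bump (G i) (hRH i) x (by norm_num : (1 : ℝ) / 4 < 1)
    refine tsum_of_norm_bounded (sm.hasSum.mul_left δ) fun ρ => ?_
    obtain ⟨h0, h1⟩ := bump_one_pos_le x ρ
    rw [← mul_sub, ← mul_sub, norm_mul, norm_mul, Real.norm_of_nonneg h0.le,
      RCLike.norm_natCast, zero_add, pow_one, mul_comm δ, mul_assoc, Real.norm_eq_abs, abs_sub_comm]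
    exact mul_le_mul_of_nonneg_left (mul_le_mul_of_nonneg_left (hp _ ⟨h0.le, h1⟩).le h0.le)
      (Nat.cast_nonneg _)
  have hs' : |testSum (G i) x ψ / logGenus (G i) -
      testSum (G i) x (fun v => p.eval v) / logGenus (G i)| ≤ δ * M := by
    rw [← sub_div, abs_div, abs_of_pos hg0, div_le_iff₀ hg0]
    rw [div_lt_iff₀ hg0] at h2
    linarith [mul_le_mul_of_nonneg_left h2.le hδ0.le]
  have e : δ * M = ε / 4 := by rw [hδ]; field_simp
  rw [Real.dist_eq] at h1 ⊢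
  rw [abs_le] at hs' hdiff
  rw [abs_lt] at h1 ⊢
  constructor <;> linarith

/-- A ramp at `t₁ < t₂`, divided by `v`. -/
def rampTest (t₁ t₂ v : ℝ) : ℝ := max 0 (min 1 ((v - t₁) / (t₂ - t₁))) / max v t₁

theorem continuous_rampTest {t₁ : ℝ} (t₂ : ℝ) (h : 0 < t₁) : Continuous (rampTest t₁ t₂) :=
  (continuous_const.max
    (continuous_const.min ((continuous_id.sub continuous_const).div_const _))).div
    (continuous_id.max continuous_const) fun _ => (lt_max_of_lt_right h).ne'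

theorem mul_rampTest_bounds {t₁ t₂ v : ℝ} (h1 : 0 < t₁) (h12 : t₁ < t₂) :
    (if t₂ ≤ v then (1 : ℝ) else 0) ≤ v * rampTest t₁ t₂ v ∧
      v * rampTest t₁ t₂ v ≤ if t₁ ≤ v then (1 : ℝ) else 0 := by
  have hd : 0 < t₂ - t₁ := sub_pos.2 h12
  by_cases hv : t₁ ≤ v
  · have e : v * rampTest t₁ t₂ v = max 0 (min 1 ((v - t₁) / (t₂ - t₁))) := by
      rw [rampTest, max_eq_left hv, mul_div_cancel₀ _ (by linarith : v ≠ 0)]
    rw [e, if_pos hv]
    refine ⟨?_, max_le zero_le_one (min_le_left _ _)⟩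
    split_ifs with h
    · exact le_max_of_le_right (le_min le_rfl (by rw [le_div_iff₀ hd]; linarith))
    · exact le_max_left _ _
  · push Not at hv
    have hneg : (v - t₁) / (t₂ - t₁) ≤ 0 := div_nonpos_of_nonpos_of_nonneg (by linarith) hd.le
    have hz : rampTest t₁ t₂ v = 0 := by
      rw [rampTest, max_eq_left ((min_le_right _ _).trans hneg), zero_div]
    rw [hz, mul_zero, if_neg (not_le.2 hv), if_neg (not_le.2 (hv.trans h12))]
    exact ⟨le_rfl, le_rfl⟩

theorem inv_le_inv_one_add_sq {T u : ℝ} (hT : 0 ≤ T) :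
    (1 + T ^ 2)⁻¹ ≤ (1 + u ^ 2)⁻¹ ↔ |u| ≤ T := by
  rw [inv_le_inv₀ (by positivity) (by positivity), add_le_add_iff_left]
  conv_rhs => rw [← abs_of_nonneg hT]
  exact sq_le_sq

/-- The ordinates in `[x - T, x + T]`, with multiplicity. -/
def intervalCount (x T : ℝ) : ℝ :=
  ∑' ρ : ℂ, if |ρ.im - x| ≤ T then (xiMult K ρ : ℝ) else 0

theorem finite_support_count (x T : ℝ) :
    (Function.support fun ρ : ℂ => if |ρ.im - x| ≤ T then (xiMult K ρ : ℝ) else 0).Finite := by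
  refine (finite_stripZeros K (|x| + T)).subset fun ρ hρ => ?_
  rw [Function.mem_support] at hρ
  split_ifs at hρ with h
  · refine (mem_stripZeros_iff K).2 ⟨(xiMult_ne_zero_iff K).1 fun hm => hρ (by simp [hm]), ?_⟩
    have := abs_add_le (ρ.im - x) x
    rw [sub_add_cancel] at this
    linarith
  · exact absurd rfl hρ

theorem hasSum_count (x T : ℝ) :
    HasSum (fun ρ : ℂ => if |ρ.im - x| ≤ T then (xiMult K ρ : ℝ) else 0) (intervalCount K x T) :=
  (summable_of_hasFiniteSupport (finite_support_count K x T)).hasSum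

theorem testSum_ramp_bounds (hRH : RHFor K) (x : ℝ) {T₁ T₂ : ℝ} (h1 : 0 ≤ T₁) (h12 : T₁ < T₂) :
    intervalCount K x T₁ ≤ testSum K x (rampTest (1 + T₂ ^ 2)⁻¹ (1 + T₁ ^ 2)⁻¹) ∧
      testSum K x (rampTest (1 + T₂ ^ 2)⁻¹ (1 + T₁ ^ 2)⁻¹) ≤ intervalCount K x T₂ := by
  have ht : (1 + T₂ ^ 2)⁻¹ < (1 + T₁ ^ 2)⁻¹ :=
    inv_strictAnti₀ (by positivity) (by nlinarith)
  have h2 : 0 ≤ T₂ := h1.trans h12.le
  obtain ⟨B, hB⟩ := isCompact_Icc.exists_bound_of_continuousOn
    ((continuous_rampTest (1 + T₁ ^ 2)⁻¹ (by positivity : 0 < (1 + T₂ ^ 2)⁻¹)).continuousOn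
      (s := Icc (0 : ℝ) 1))
  have hs := (summable_test K hRH x (ψ := rampTest (1 + T₂ ^ 2)⁻¹ (1 + T₁ ^ 2)⁻¹)
    fun v hv => hB v hv).hasSum
  have key : ∀ ρ : ℂ, (if |ρ.im - x| ≤ T₁ then (1 : ℝ) else 0) ≤
      bump x 1 ρ * rampTest (1 + T₂ ^ 2)⁻¹ (1 + T₁ ^ 2)⁻¹ (bump x 1 ρ) ∧
      bump x 1 ρ * rampTest (1 + T₂ ^ 2)⁻¹ (1 + T₁ ^ 2)⁻¹ (bump x 1 ρ) ≤
        if |ρ.im - x| ≤ T₂ then (1 : ℝ) else 0 := fun ρ => by
    have h := mul_rampTest_bounds (v := bump x 1 ρ) (by positivity : 0 < (1 + T₂ ^ 2)⁻¹) ht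
    simp only [bump, inv_le_inv_one_add_sq h1, inv_le_inv_one_add_sq h2] at h ⊢
    exact h
  constructor
  · refine hasSum_le (fun ρ => ?_) (hasSum_count K x T₁) hs
    refine le_trans (le_of_eq ?_) (mul_le_mul_of_nonneg_left (key ρ).1 (Nat.cast_nonneg _))
    split_ifs <;> simp
  · refine hasSum_le (fun ρ => ?_) hs (hasSum_count K x T₂)
    refine le_trans (mul_le_mul_of_nonneg_left (key ρ).2 (Nat.cast_nonneg _)) (le_of_eq ?_)
    split_ifs <;> simp

theorem testLim_ramp_bounds {T₁ T₂ : ℝ} (h1 : 0 ≤ T₁) (h12 : T₁ < T₂) :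
    2 * T₁ / π ≤ testLim (rampTest (1 + T₂ ^ 2)⁻¹ (1 + T₁ ^ 2)⁻¹) ∧
      testLim (rampTest (1 + T₂ ^ 2)⁻¹ (1 + T₁ ^ 2)⁻¹) ≤ 2 * T₂ / π := by
  have ht : (1 + T₂ ^ 2)⁻¹ < (1 + T₁ ^ 2)⁻¹ :=
    inv_strictAnti₀ (by positivity) (by nlinarith)
  have h2 : 0 ≤ T₂ := h1.trans h12.le
  have hI := integrable_test ((continuous_rampTest (1 + T₁ ^ 2)⁻¹
    (by positivity : 0 < (1 + T₂ ^ 2)⁻¹)).continuousOn (s := Icc (0 : ℝ) 1))
  have e : ∀ T : ℝ, 0 ≤ T → Integrable (indicator (Icc (-T) T) fun _ : ℝ => (1 : ℝ)) ∧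
      ∫ u : ℝ, indicator (Icc (-T) T) (fun _ : ℝ => (1 : ℝ)) u = 2 * T := fun T hT =>
    ⟨(integrable_indicator_iff measurableSet_Icc).2 (integrableOn_const (by simp)), by
      rw [integral_indicator measurableSet_Icc, setIntegral_const, smul_eq_mul, mul_one,
        Real.volume_real_Icc_of_le (by linarith)]
      ring⟩
  have key : ∀ u : ℝ, indicator (Icc (-T₁) T₁) (fun _ : ℝ => (1 : ℝ)) u ≤
      (1 + u ^ 2)⁻¹ * rampTest (1 + T₂ ^ 2)⁻¹ (1 + T₁ ^ 2)⁻¹ (1 + u ^ 2)⁻¹ ∧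
      (1 + u ^ 2)⁻¹ * rampTest (1 + T₂ ^ 2)⁻¹ (1 + T₁ ^ 2)⁻¹ (1 + u ^ 2)⁻¹ ≤
        indicator (Icc (-T₂) T₂) (fun _ : ℝ => (1 : ℝ)) u := fun u => by
    have h := mul_rampTest_bounds (v := (1 + u ^ 2)⁻¹) (by positivity : 0 < (1 + T₂ ^ 2)⁻¹) ht
    simp only [inv_le_inv_one_add_sq h1, inv_le_inv_one_add_sq h2, abs_le] at h
    simp only [indicator_apply, Set.mem_Icc]
    exact h
  rw [testLim, div_eq_inv_mul, div_eq_inv_mul, ← (e T₁ h1).2, ← (e T₂ h2).2]
  have hπ : (0 : ℝ) ≤ π⁻¹ := inv_nonneg.2 Real.pi_pos.le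
  exact ⟨mul_le_mul_of_nonneg_left (integral_mono (e T₁ h1).1 hI fun u => (key u).1) hπ,
    mul_le_mul_of_nonneg_left (integral_mono hI (e T₂ h2).1 fun u => (key u).2) hπ⟩

/-- **The ordinates in an interval.** -/
theorem tendsto_intervalCount (hRH : ∀ i, RHFor (G i))
    (hg : Tendsto (fun i => logGenus (G i)) l atTop)
    (hn : Tendsto (fun i => (finrank ℚ (G i) : ℝ) / logGenus (G i)) l (𝓝 0)) (x : ℝ) {T : ℝ}
    (hT : 0 ≤ T) :
    Tendsto (fun i => intervalCount (G i) x T / logGenus (G i)) l (𝓝 (2 * T / π)) := by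
  have hπ : (0 : ℝ) < π := Real.pi_pos
  have hlim : ∀ T₁ T₂ : ℝ, Tendsto (fun i =>
      testSum (G i) x (rampTest (1 + T₂ ^ 2)⁻¹ (1 + T₁ ^ 2)⁻¹) / logGenus (G i)) l
      (𝓝 (testLim (rampTest (1 + T₂ ^ 2)⁻¹ (1 + T₁ ^ 2)⁻¹))) := fun T₁ T₂ =>
    tendsto_testSum G hRH hg hn x (continuous_rampTest _ (by positivity)).continuousOn
  refine tendsto_order.2 ⟨fun a ha => ?_, fun a ha => ?_⟩
  · rcases eq_or_lt_of_le hT with rfl | hT0
    · filter_upwards [hg.eventually_gt_atTop 0] with i hg0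
      refine lt_of_lt_of_le (lt_of_lt_of_eq ha (by simp)) (div_nonneg ?_ hg0.le)
      exact tsum_nonneg fun ρ => by positivity
    have hwit : ∃ T₁, 0 ≤ T₁ ∧ T₁ < T ∧ a < 2 * T₁ / π := by
      rcases lt_or_ge a 0 with ha0 | ha0
      · exact ⟨0, le_rfl, hT0, by simpa using ha0⟩
      · have hb : π * a / 2 < T := by
          rw [lt_div_iff₀ hπ] at ha
          linarith
        have hb0 : 0 ≤ π * a / 2 := by positivity
        exact ⟨(π * a / 2 + T) / 2, by linarith, by linarith,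
          by rw [lt_div_iff₀ hπ]; linarith⟩
    obtain ⟨T₁, h1, h12, h3⟩ := hwit
    filter_upwards [(hlim T₁ T).eventually (eventually_gt_nhds
      (h3.trans_le (testLim_ramp_bounds h1 h12).1)), hg.eventually_gt_atTop 0] with i hi hg0
    exact hi.trans_le
      (div_le_div_of_nonneg_right (testSum_ramp_bounds (G i) (hRH i) x h1 h12).2 hg0.le)
  · have hb : T < π * a / 2 := by
      rw [gt_iff_lt, div_lt_iff₀ hπ] at ha
      linarith
    obtain ⟨T₂, hT₂⟩ : ∃ T₂, T₂ = (π * a / 2 + T) / 2 := ⟨_, rfl⟩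
    have h3 : 2 * T₂ / π < a := by
      rw [div_lt_iff₀ hπ, hT₂]
      linarith
    filter_upwards [(hlim T T₂).eventually (eventually_lt_nhds
      ((testLim_ramp_bounds hT (by linarith : T < T₂)).2.trans_lt h3)),
      hg.eventually_gt_atTop 0] with i hi hg0
    exact (div_le_div_of_nonneg_right
      (testSum_ramp_bounds (G i) (hRH i) x hT (by linarith)).1 hg0.le).trans_lt hi

end FA.DedekindZeroDistribution

end
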