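import Fermat.Agent.DedekindZeroDistribution.Stieltjes
import Fermat.Agent.EulerKroneckerFamilies.Differences
import Mathlib.Analysis.SpecialFunctions.ImproperIntegrals
import Mathlib.Topology.ContinuousMap.Weierstrass

/-!
# Moments and continuous test functions of the ordinates

With `v = 1/(1 + (γ - x) ^ 2)` the `k`-th differences of the transform at `1 + j η` give
`∑ m / ∏_{l ≤ k} (1/v + l η)`, within the factor `(1 + k η) ^ (k+1)` of `∑ m v ^ (k+1)`. So the
moments tend to those of `du/π`; by Weierstrass so does `∑ m v ψ v` for continuous `ψ`.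
-/

set_option autoImplicit false
set_option linter.style.haveILetI false

noncomputable section

universe u

open NumberField InfinitePlace Module Filter Topology Set MeasureTheory
open FA.TsfasmanVladut FA.EulerKroneckerFamilies FA.DedekindHadamard
open scoped Real Classical

namespace FA.DedekindZeroDistribution

/-- `1 / ∏_{l ≤ k} (w + l η)`. -/
def stepKernel (k : ℕ) (η w : ℝ) : ℝ := (∏ l ∈ Finset.range (k + 1), (w + l * η))⁻¹

theorem altSum_kernel (k : ℕ) {η w : ℝ} (hη : 0 < η) (hw : 0 < w) :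
    altSum k (fun j : ℕ => (w + j * η)⁻¹) = (k.factorial : ℝ) * η ^ k * stepKernel k η w := by
  have hc : 0 < w / η := div_pos hw hη
  have e : ∀ l : ℕ, w + l * η = η * (w / η + l) := fun l => by field_simp
  simp only [e, stepKernel, Finset.prod_mul_distrib, Finset.prod_const, Finset.card_range, mul_inv]
  rw [altSum_mul_left,
    altSum_inv_add k fun i => (add_pos_of_pos_of_nonneg hc (Nat.cast_nonneg i)).ne', pow_succ,
    div_eq_mul_inv]
  field_simp

theorem kernel_bounds (k : ℕ) {η w : ℝ} (hη : 0 ≤ η) (hw : 1 ≤ w) :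
    0 ≤ stepKernel k η w ∧ stepKernel k η w ≤ w⁻¹ ^ (k + 1) ∧
      w⁻¹ ^ (k + 1) ≤ (1 + k * η) ^ (k + 1) * stepKernel k η w := by
  have h0 : 0 < ∏ l ∈ Finset.range (k + 1), (w + l * η) :=
    Finset.prod_pos fun l _ => by positivity
  have h1 : w ^ (k + 1) ≤ ∏ l ∈ Finset.range (k + 1), (w + l * η) := by
    rw [Finset.pow_eq_prod_const]
    exact Finset.prod_le_prod (fun _ _ => by linarith)
      fun l _ => le_add_of_nonneg_right (by positivity)
  have h2 : ∏ l ∈ Finset.range (k + 1), (w + l * η) ≤ ((1 + k * η) * w) ^ (k + 1) := by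
    rw [Finset.pow_eq_prod_const]
    refine Finset.prod_le_prod (fun l _ => by positivity) fun l hl => ?_
    have hlk : (l : ℝ) ≤ k := Nat.cast_le.2 (Nat.lt_succ_iff.1 (Finset.mem_range.1 hl))
    nlinarith [mul_le_mul_of_nonneg_right hlk hη,
      mul_le_mul_of_nonneg_left hw (by positivity : 0 ≤ (k : ℝ) * η)]
  refine ⟨(inv_pos.2 h0).le, ?_, ?_⟩
  · rw [inv_pow]
    exact inv_anti₀ (by positivity) h1
  · rw [mul_pow] at h2
    rw [inv_pow, stepKernel, inv_eq_one_div, ← div_eq_mul_inv,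
      div_le_div_iff₀ (by positivity) h0, one_mul]
    exact h2

theorem integral_inv_add_sq {b : ℝ} (hb : 0 < b) :
    Integrable (fun u : ℝ => (b + u ^ 2)⁻¹) ∧ ∫ u : ℝ, (b + u ^ 2)⁻¹ = π / √b := by
  have hs : 0 < √b := Real.sqrt_pos.2 hb
  have e : (fun u : ℝ => (b + u ^ 2)⁻¹) = fun u => b⁻¹ * (1 + ((√b)⁻¹ * u) ^ 2)⁻¹ :=
    funext fun u => by
    rw [mul_pow, inv_pow, Real.sq_sqrt hb.le, ← mul_inv, mul_add, mul_one, ← mul_assoc,
      mul_inv_cancel₀ hb.ne', one_mul]
  rw [e]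
  refine ⟨(integrable_inv_one_add_sq.comp_mul_left' (inv_ne_zero hs.ne')).const_mul _, ?_⟩
  rw [integral_const_mul, Measure.integral_comp_mul_left (fun u : ℝ => (1 + u ^ 2)⁻¹),
    integral_univ_inv_one_add_sq, inv_inv, abs_of_pos hs, smul_eq_mul]
  field_simp
  rw [Real.sq_sqrt hb.le]

theorem integrable_moment (k : ℕ) : Integrable fun u : ℝ => ((1 + u ^ 2)⁻¹) ^ (k + 1) := by
  refine (integral_inv_add_sq one_pos).1.mono' (by fun_prop) (Eventually.of_forall fun u => ?_)
  rw [Real.norm_of_nonneg (by positivity), pow_succ']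
  exact mul_le_of_le_one_right (by positivity)
    (pow_le_one₀ (by positivity) (inv_le_one_of_one_le₀ (by nlinarith)))

/-- `π⁻¹ ∫ du / (1 + u ^ 2) ^ (k + 1)`. -/
def momentLim (k : ℕ) : ℝ := π⁻¹ * ∫ u : ℝ, ((1 + u ^ 2)⁻¹) ^ (k + 1)

variable (K : Type u) [Field K] [NumberField K]

/-- `∑ m v ^ (k + 1)`. -/
def momentSum (x : ℝ) (k : ℕ) : ℝ := ∑' ρ : ℂ, (xiMult K ρ : ℝ) * bump x 1 ρ ^ (k + 1)

theorem bump_one_pos_le (x : ℝ) (ρ : ℂ) : 0 < bump x 1 ρ ∧ bump x 1 ρ ≤ 1 :=
  ⟨inv_pos.2 (by positivity), inv_le_one_of_one_le₀ (le_add_of_nonneg_right (sq_nonneg _))⟩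

theorem summable_bump (hRH : RHFor K) (x : ℝ) {b : ℝ} (hb : 1 / 4 < b) :
    Summable fun ρ : ℂ => (xiMult K ρ : ℝ) * bump x b ρ := by
  have hb2 : 1 / 2 < √b := by
    rw [show (1 : ℝ) / 2 = √(1 / 4) by rw [show (1 : ℝ) / 4 = (1 / 2) ^ 2 by norm_num,
      Real.sqrt_sq (by norm_num)]]
    exact Real.sqrt_lt_sqrt (by norm_num) hb
  obtain ⟨C, hC⟩ := exists_bumpSum_near.{u} (show 1 < √b + 1 / 2 by linarith) x
  have h := (hC K hRH).1
  rwa [show (√b + 1 / 2 - 1 / 2) ^ 2 = b by rw [add_sub_cancel_right, Real.sq_sqrt (by linarith)]]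
    at h

theorem moment_squeeze (hRH : RHFor K) (x : ℝ) (k : ℕ) {η : ℝ} (hη : 0 < η) :
    (altSum k fun j : ℕ => bumpSum K x (1 + j * η)) / ((k.factorial : ℝ) * η ^ k) ≤
        momentSum K x k ∧
      momentSum K x k ≤ (1 + k * η) ^ (k + 1) *
        ((altSum k fun j : ℕ => bumpSum K x (1 + j * η)) / ((k.factorial : ℝ) * η ^ k)) := by
  have hd : (k.factorial : ℝ) * η ^ k ≠ 0 :=
    mul_ne_zero (Nat.cast_ne_zero.2 k.factorial_ne_zero) (pow_ne_zero _ hη.ne')
  have hb : ∀ j : ℕ, (1 : ℝ) / 4 < 1 + j * η := fun j => by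
    have : 0 ≤ (j : ℝ) * η := by positivity
    linarith
  have h : HasSum (fun ρ : ℂ => (xiMult K ρ : ℝ) * stepKernel k η (1 + (ρ.im - x) ^ 2))
      ((altSum k fun j : ℕ => bumpSum K x (1 + j * η)) / ((k.factorial : ℝ) * η ^ k)) := by
    have hs : HasSum (fun ρ : ℂ => altSum k fun j : ℕ => (xiMult K ρ : ℝ) * bump x (1 + j * η) ρ)
        (altSum k fun j : ℕ => bumpSum K x (1 + j * η)) :=
      hasSum_sum fun j _ => (summable_bump K hRH x (hb j)).hasSum.mul_left _
    refine (hs.div_const _).congr_fun fun ρ => ?_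
    rw [altSum_mul_left, show (fun j : ℕ => bump x (1 + j * η) ρ) =
      fun j : ℕ => (1 + (ρ.im - x) ^ 2 + j * η)⁻¹ from funext fun j => by rw [bump, add_right_comm],
      altSum_kernel k hη (by positivity)]
    field_simp
  have hb' : ∀ ρ : ℂ, bump x 1 ρ = (1 + (ρ.im - x) ^ 2)⁻¹ := fun ρ => rfl
  have hw : ∀ ρ : ℂ, 1 ≤ 1 + (ρ.im - x) ^ 2 := fun ρ => le_add_of_nonneg_right (sq_nonneg _)
  have hm : Summable fun ρ : ℂ => (xiMult K ρ : ℝ) * bump x 1 ρ ^ (k + 1) :=
    Summable.of_nonneg_of_le (fun ρ => mul_nonneg (Nat.cast_nonneg _)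
      (pow_nonneg (bump_one_pos_le x ρ).1.le _))
      (fun ρ => by
        show (xiMult K ρ : ℝ) * bump x 1 ρ ^ (k + 1) ≤
          (1 + k * η) ^ (k + 1) * ((xiMult K ρ : ℝ) * stepKernel k η (1 + (ρ.im - x) ^ 2))
        rw [hb', mul_left_comm]
        exact mul_le_mul_of_nonneg_left (kernel_bounds k hη.le (hw ρ)).2.2 (Nat.cast_nonneg _))
      (h.summable.mul_left _)
  refine ⟨hasSum_le (fun ρ => mul_le_mul_of_nonneg_left ?_ (Nat.cast_nonneg _)) h hm.hasSum,
    hasSum_le (fun ρ => ?_) hm.hasSum (h.mul_left _)⟩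
  · rw [hb']
    exact (kernel_bounds k hη.le (hw ρ)).2.1
  · rw [hb', mul_left_comm]
    exact mul_le_mul_of_nonneg_left (kernel_bounds k hη.le (hw ρ)).2.2 (Nat.cast_nonneg _)

theorem momentLim_squeeze (k : ℕ) {η : ℝ} (hη : 0 < η) :
    (altSum k fun j : ℕ => (√(1 + j * η))⁻¹) / ((k.factorial : ℝ) * η ^ k) ≤ momentLim k ∧
      momentLim k ≤ (1 + k * η) ^ (k + 1) *
        ((altSum k fun j : ℕ => (√(1 + j * η))⁻¹) / ((k.factorial : ℝ) * η ^ k)) := by
  have hb : ∀ j : ℕ, (0 : ℝ) < 1 + j * η := fun j => by positivity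
  have hd : (k.factorial : ℝ) * η ^ k ≠ 0 :=
    mul_ne_zero (Nat.cast_ne_zero.2 k.factorial_ne_zero) (pow_ne_zero _ hη.ne')
  have e : (fun u : ℝ => (k.factorial : ℝ) * η ^ k * stepKernel k η (1 + u ^ 2)) =
      fun u : ℝ => altSum k fun j : ℕ => (1 + (j : ℝ) * η + u ^ 2)⁻¹ := funext fun u => by
    rw [← altSum_kernel k hη (by positivity)]
    exact congrArg _ (funext fun j => by rw [add_right_comm])
  have hI : Integrable fun u : ℝ => stepKernel k η (1 + u ^ 2) := by
    have h := (integrable_finsetSum (Finset.range (k + 1)) fun j _ =>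
      (integral_inv_add_sq (hb j)).1.const_mul ((-1) ^ j * (k.choose j : ℝ))).const_mul
        ((k.factorial : ℝ) * η ^ k)⁻¹
    refine h.congr (Eventually.of_forall fun u => ?_)
    have := congrFun e u
    simp only [altSum] at this
    dsimp only
    rw [← this, ← mul_assoc, inv_mul_cancel₀ hd, one_mul]
  have hv : π⁻¹ * ∫ u : ℝ, stepKernel k η (1 + u ^ 2) =
      (altSum k fun j : ℕ => (√(1 + j * η))⁻¹) / ((k.factorial : ℝ) * η ^ k) := by
    have h : (k.factorial : ℝ) * η ^ k * ∫ u : ℝ, stepKernel k η (1 + u ^ 2) =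
        π * altSum k fun j : ℕ => (√(1 + j * η))⁻¹ := by
      rw [← integral_const_mul, e]
      simp only [altSum]
      rw [integral_finsetSum _ fun j _ => (integral_inv_add_sq (hb j)).1.const_mul _,
        Finset.mul_sum]
      refine Finset.sum_congr rfl fun j _ => ?_
      rw [integral_const_mul, (integral_inv_add_sq (hb j)).2]
      ring
    rw [eq_div_iff hd, mul_assoc, mul_comm _ ((k.factorial : ℝ) * η ^ k), h, ← mul_assoc,
      inv_mul_cancel₀ Real.pi_ne_zero, one_mul]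
  have hπ : (0 : ℝ) ≤ π⁻¹ := inv_nonneg.2 Real.pi_pos.le
  rw [← hv, momentLim]
  refine ⟨mul_le_mul_of_nonneg_left (integral_mono hI (integrable_moment k) fun u => ?_) hπ, ?_⟩
  · exact (kernel_bounds k hη.le (le_add_of_nonneg_right (sq_nonneg u))).2.1
  · refine (mul_le_mul_of_nonneg_left (integral_mono (integrable_moment k) (hI.const_mul _)
      fun u => (kernel_bounds k hη.le (le_add_of_nonneg_right (sq_nonneg u))).2.2) hπ).trans
        (le_of_eq ?_)
    rw [integral_const_mul, mul_left_comm]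

variable {ι : Type*} {l : Filter ι} (G : ι → Type u) [∀ i, Field (G i)] [∀ i, NumberField (G i)]

/-- **The moments.** -/
theorem tendsto_momentSum (hRH : ∀ i, RHFor (G i)) (hg : Tendsto (fun i => logGenus (G i)) l atTop)
    (hn : Tendsto (fun i => (finrank ℚ (G i) : ℝ) / logGenus (G i)) l (𝓝 0)) (x : ℝ) (k : ℕ) :
    Tendsto (fun i => momentSum (G i) x k / logGenus (G i)) l (𝓝 (momentLim k)) := by
  obtain ⟨A, hA⟩ : ∃ A : ℝ → ℝ, A = fun η =>
    (altSum k fun j : ℕ => (√(1 + j * η))⁻¹) / ((k.factorial : ℝ) * η ^ k) := ⟨_, rfl⟩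
  have hD : ∀ η, 0 < η → Tendsto (fun i => (altSum k fun j : ℕ => bumpSum (G i) x (1 + j * η)) /
      ((k.factorial : ℝ) * η ^ k) / logGenus (G i)) l (𝓝 (A η)) := fun η hη => by
    have h : Tendsto (fun i => altSum k fun j : ℕ => bumpSum (G i) x (1 + j * η) / logGenus (G i))
        l (𝓝 (altSum k fun j : ℕ => (√(1 + j * η))⁻¹)) := by
      refine tendsto_finsetSum _ fun j _ => (tendsto_bumpSum G hRH hg hn x ?_).const_mul _
      have : 0 ≤ (j : ℝ) * η := by positivity
      linarith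
    rw [hA]
    refine (h.div_const _).congr fun i => ?_
    simp only [altSum, Finset.sum_div]
    exact Finset.sum_congr rfl fun j _ => by ring
  have hc : Tendsto (fun η : ℝ => (1 + k * η) ^ (k + 1)) (𝓝[>] 0) (𝓝 1) := by
    have : Continuous fun η : ℝ => (1 + k * η) ^ (k + 1) := by fun_prop
    simpa using (this.tendsto 0).mono_left nhdsWithin_le_nhds
  refine tendsto_order.2 ⟨fun a ha => ?_, fun a ha => ?_⟩
  · have h := hc.const_mul a
    rw [mul_one] at h
    obtain ⟨η, hη, hη0⟩ :=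
      ((h.eventually (eventually_lt_nhds ha)).and eventually_mem_nhdsWithin).exists
    have hη0' : 0 < η := hη0
    have hc0 : 0 < (1 + k * η) ^ (k + 1) := by positivity
    have hlt : a < A η := by
      have := (momentLim_squeeze k hη0').2
      rw [hA]
      nlinarith
    filter_upwards [(hD η hη0').eventually (eventually_gt_nhds hlt), hg.eventually_gt_atTop 0]
      with i hi hg0
    exact hi.trans_le (div_le_div_of_nonneg_right (moment_squeeze (G i) (hRH i) x k hη0').1 hg0.le)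
  · have h := hc.mul_const (momentLim k)
    rw [one_mul] at h
    obtain ⟨η, hη, hη0⟩ :=
      ((h.eventually (eventually_lt_nhds ha)).and eventually_mem_nhdsWithin).exists
    have hη0' : 0 < η := hη0
    have hc0 : 0 < (1 + k * η) ^ (k + 1) := by positivity
    have hlt : (1 + k * η) ^ (k + 1) * A η < a := by
      rw [hA]
      exact lt_of_le_of_lt (mul_le_mul_of_nonneg_left (momentLim_squeeze k hη0').1 hc0.le) hη
    filter_upwards [((hD η hη0').const_mul _).eventually (eventually_lt_nhds hlt),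
      hg.eventually_gt_atTop 0] with i hi hg0
    refine lt_of_le_of_lt ?_ hi
    rw [← mul_div_assoc]
    exact div_le_div_of_nonneg_right (moment_squeeze (G i) (hRH i) x k hη0').2 hg0.le

end FA.DedekindZeroDistribution

end
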