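import Fermat.Agent.EulerKroneckerFamilies.Bounds

/-!
# The transform of Stieltjes of the ordinates

On the Riemann hypothesis `∑ m / (b + (γ - x) ^ 2) = g / √b + O (1 + n)` for `b > 1/4`, by Stark's
sum at `1/2 + √b + i x`; so along fields with `g → ∞` and `n/g → 0` its quotient by `g` tends to
`1/√b`.
-/

set_option autoImplicit false
set_option linter.style.haveILetI false

noncomputable section

universe u

open NumberField InfinitePlace Module Filter Topology Set IsDedekindDomain Ideal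
open FA.HeckeBS FA.TsfasmanVladut FA.EulerKroneckerFamilies
open FA.DedekindZeroCount FA.DedekindHadamard
open scoped Real Classical

namespace FA.DedekindZeroDistribution

variable (K : Type u) [Field K] [NumberField K]

/-- `1 / (b + (γ - x) ^ 2)`. -/
def bump (x b : ℝ) (ρ : ℂ) : ℝ := (b + (ρ.im - x) ^ 2)⁻¹

/-- `∑ m / (b + (γ - x) ^ 2)`. -/
def bumpSum (x b : ℝ) : ℝ := ∑' ρ : ℂ, (xiMult K ρ : ℝ) * bump x b ρ

theorem norm_logDeriv_le {s : ℂ} (hs : 1 < s.re) :
    ‖deriv (dedekindZeta K) s / dedekindZeta K s‖ ≤ placeSum K s.re := by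
  have hone : FA.Hecke.IsRayChar (⊤ : Ideal (𝓞 K)) (1 : Ideal (𝓞 K) →* ℂ) :=
    FA.Hecke.IsRayChar.one
  have h := hone.hasSum_negLogDeriv hs
  have he : FA.Hecke.heckeL (1 : Ideal (𝓞 K) →* ℂ) =ᶠ[𝓝 s] dedekindZeta K := by
    filter_upwards [(isOpen_lt continuous_const Complex.continuous_re).mem_nhds hs] with y hy
    exact FA.Hecke.heckeL_one hy
  rw [he.deriv_eq, he.eq_of_nhds, neg_div] at h
  rw [← norm_neg, ← h.tsum_eq]
  refine tsum_of_norm_bounded (hasSum_places K hs) fun v => ?_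
  have hq : 1 < absNorm v.asIdeal := NumberField.HeightOneSpectrum.one_lt_absNorm v
  obtain ⟨q, hqd⟩ : ∃ q : ℝ, q = ((absNorm v.asIdeal : ℕ) : ℝ) := ⟨_, rfl⟩
  have hq1 : 1 < q := hqd ▸ Nat.one_lt_cast.2 hq
  obtain ⟨p, hp⟩ : ∃ p, p = FA.Hecke.fPow (1 : Ideal (𝓞 K) →* ℂ) s v := ⟨_, rfl⟩
  have hpn : ‖p‖ = (q ^ s.re)⁻¹ := by
    rw [hp, FA.Hecke.fPow, MonoidHom.one_apply, one_mul, FA.PrimeIdeal.primePow,
      Complex.norm_natCast_cpow_of_pos (by omega), Complex.neg_re, Real.rpow_neg (by positivity),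
      hqd]
  have hQ : 1 < q ^ s.re := Real.one_lt_rpow hq1 (by linarith)
  have hlt : ‖p‖ < 1 := hpn ▸ inv_lt_one_of_one_lt₀ hQ
  rw [← hp, norm_mul, norm_div, Complex.norm_real,
    Real.norm_of_nonneg (Real.log_natCast_nonneg _), placeWeight, ← hqd,
    div_eq_mul_inv (Real.log q)]
  refine mul_le_mul_of_nonneg_left ?_ (Real.log_nonneg hq1.le)
  calc ‖p‖ / ‖1 - p‖ ≤ ‖p‖ / (1 - ‖p‖) := by
        refine div_le_div_of_nonneg_left (norm_nonneg _) (sub_pos.2 hlt) ?_
        simpa using norm_sub_norm_le (1 : ℂ) p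
    _ = _ := by
        rw [hpn]
        field_simp

theorem reTerm_eq_bump (hRH : RHFor K) {σ x : ℝ} {ρ : ℂ} :
    reTerm K ((σ : ℂ) + x * Complex.I) ρ =
      (σ - 1 / 2) * ((xiMult K ρ : ℝ) * bump x ((σ - 1 / 2) ^ 2) ρ) := by
  rcases eq_or_ne (xiMult K ρ) 0 with hm | hm
  · simp [reTerm, hm]
  have hρ := re_eq_half_of_rh K hRH ((xiMult_ne_zero_iff K).1 hm)
  rw [reTerm, Complex.inv_re, Complex.normSq_apply, bump]
  simp only [Complex.sub_re, Complex.sub_im, Complex.add_re, Complex.add_im, Complex.mul_re,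
    Complex.mul_im, Complex.ofReal_re, Complex.ofReal_im, Complex.I_re, Complex.I_im, hρ,
    mul_zero, mul_one, sub_self, add_zero, zero_add]
  rw [mul_left_comm, div_eq_mul_inv]
  congr 3
  ring

/-- `1/(s (1 - s))`-terms and infinite places. -/
def archSize (σ x : ℝ) : ℝ :=
  |((((σ : ℂ) + x * Complex.I))⁻¹).re| + |((((σ : ℂ) + x * Complex.I) - 1)⁻¹).re| +
    ‖(Complex.digamma (((σ : ℂ) + x * Complex.I) / 2) - Real.log π) / 2‖ +
      ‖Complex.digamma ((σ : ℂ) + x * Complex.I) - Real.log (2 * π)‖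

/-- **`a ∑ m / (a ^ 2 + (γ - x) ^ 2) = g + O (1 + n)`.** -/
theorem exists_bumpSum_near {σ : ℝ} (hσ : 1 < σ) (x : ℝ) : ∃ C : ℝ,
    ∀ (K : Type u) [Field K] [NumberField K], RHFor K →
      (Summable fun ρ : ℂ => (xiMult K ρ : ℝ) * bump x ((σ - 1 / 2) ^ 2) ρ) ∧
        |(σ - 1 / 2) * bumpSum K x ((σ - 1 / 2) ^ 2) - logGenus K| ≤
          C * (1 + finrank ℚ K) := by
  obtain ⟨P, hP⟩ : ∃ P, P = |4 / (σ - 1) * eulerConst ((1 + σ) / 2)| := ⟨_, rfl⟩
  refine ⟨archSize σ x + P, fun K _ _ hRH => ?_⟩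
  obtain ⟨s, hs⟩ : ∃ s, s = (σ : ℂ) + x * Complex.I := ⟨_, rfl⟩
  have hsre : s.re = σ := by rw [hs]; simp
  have h := stark_identity K (show 1 < s.re by linarith)
  rw [hs, show reTerm K ((σ : ℂ) + x * Complex.I) = fun ρ => (σ - 1 / 2) *
    ((xiMult K ρ : ℝ) * bump x ((σ - 1 / 2) ^ 2) ρ) from funext fun ρ => reTerm_eq_bump K hRH,
    ← hs] at h
  have hne : σ - 1 / 2 ≠ 0 := by linarith
  refine ⟨(summable_mul_left_iff hne).1 h.summable, ?_⟩
  rw [bumpSum, ← tsum_mul_left, h.tsum_eq, show logGenus K = discLog K / 2 from rfl]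
  have hz : |(deriv (dedekindZeta K) s / dedekindZeta K s).re| ≤ P * finrank ℚ K := by
    refine (Complex.abs_re_le_norm _).trans
      ((norm_logDeriv_le K (by linarith : 1 < s.re)).trans ?_)
    rw [hsre]
    refine (placeSum_le K hσ le_rfl).trans ?_
    rw [show Finset.Icc 2 1 = (∅ : Finset ℕ) from rfl, Finset.sum_empty, zero_add, Nat.cast_one,
      Real.one_rpow, mul_one, mul_left_comm, mul_comm, hP]
    exact mul_le_mul_of_nonneg_right (le_abs_self _) (Nat.cast_nonneg _)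
  have ha : |(archTerm K s).re| ≤
      (‖(Complex.digamma (s / 2) - Real.log π) / 2‖ +
        ‖Complex.digamma s - Real.log (2 * π)‖) * finrank ℚ K := by
    refine (Complex.abs_re_le_norm _).trans ((norm_add_le _ _).trans ?_)
    rw [norm_mul, norm_mul, Complex.norm_natCast, Complex.norm_natCast, ← degree_split K]
    have r0 : (0 : ℝ) ≤ nrRealPlaces K := Nat.cast_nonneg _
    have c0 : (0 : ℝ) ≤ nrComplexPlaces K := Nat.cast_nonneg _
    nlinarith [mul_nonneg r0 (norm_nonneg (Complex.digamma s - Real.log (2 * π))),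
      mul_nonneg c0 (norm_nonneg ((Complex.digamma (s / 2) - Real.log π) / 2)),
      mul_nonneg c0 (norm_nonneg (Complex.digamma s - Real.log (2 * π)))]
  have hn : (0 : ℝ) ≤ finrank ℚ K := Nat.cast_nonneg _
  have hP0 : 0 ≤ P := hP ▸ abs_nonneg _
  rw [abs_le] at hz ha
  rw [archSize, ← hs, abs_le]
  constructor <;>
    linarith [neg_abs_le (s⁻¹).re, neg_abs_le ((s - 1)⁻¹).re, le_abs_self (s⁻¹).re,
      le_abs_self ((s - 1)⁻¹).re, mul_nonneg (add_nonneg (abs_nonneg (s⁻¹).re)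
        (abs_nonneg ((s - 1)⁻¹).re)) hn,
      norm_nonneg (Complex.digamma s - Real.log (2 * π)),
      norm_nonneg ((Complex.digamma (s / 2) - Real.log π) / 2)]

variable {ι : Type*} {l : Filter ι} (G : ι → Type u) [∀ i, Field (G i)] [∀ i, NumberField (G i)]

/-- **The limit of the transform.** -/
theorem tendsto_bumpSum (hRH : ∀ i, RHFor (G i)) (hg : Tendsto (fun i => logGenus (G i)) l atTop)
    (hn : Tendsto (fun i => (finrank ℚ (G i) : ℝ) / logGenus (G i)) l (𝓝 0)) (x : ℝ) {b : ℝ}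
    (hb : 1 / 4 < b) :
    Tendsto (fun i => bumpSum (G i) x b / logGenus (G i)) l (𝓝 (√b)⁻¹) := by
  obtain ⟨σ, hσd⟩ : ∃ σ, σ = √b + 1 / 2 := ⟨_, rfl⟩
  have hb2 : 1 / 2 < √b := by
    rw [show (1 : ℝ) / 2 = √(1 / 4) by rw [show (1 : ℝ) / 4 = (1 / 2) ^ 2 by norm_num,
      Real.sqrt_sq (by norm_num)]]
    exact Real.sqrt_lt_sqrt (by norm_num) hb
  have hsq : (σ - 1 / 2) ^ 2 = b := by
    rw [show σ - 1 / 2 = √b by linarith, Real.sq_sqrt (by linarith)]
  obtain ⟨C, hC⟩ := exists_bumpSum_near.{u} (show 1 < σ by linarith) x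
  have hlim : Tendsto (fun i => C * ((logGenus (G i))⁻¹ +
      (finrank ℚ (G i) : ℝ) / logGenus (G i))) l (𝓝 0) := by
    simpa using ((tendsto_inv_atTop_zero.comp hg).add hn).const_mul C
  have key : Tendsto (fun i => √b * (bumpSum (G i) x b / logGenus (G i)) - 1) l (𝓝 0) := by
    refine squeeze_zero_norm' ?_ hlim
    filter_upwards [hg.eventually_gt_atTop 0] with i hg0
    have h := (hC (G i) (hRH i)).2
    rw [hsq, show σ - 1 / 2 = √b by linarith] at h
    rw [Real.norm_eq_abs, show √b * (bumpSum (G i) x b / logGenus (G i)) - 1 =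
        (√b * bumpSum (G i) x b - logGenus (G i)) / logGenus (G i) by field_simp,
      abs_div, abs_of_pos hg0, inv_eq_one_div, ← add_div, mul_div_assoc']
    exact div_le_div_of_nonneg_right h hg0.le
  have := (key.add_const 1).const_mul (√b)⁻¹
  rw [zero_add, mul_one] at this
  refine this.congr fun i => ?_
  rw [sub_add_cancel, ← mul_assoc, inv_mul_cancel₀ (by linarith), one_mul]

end FA.DedekindZeroDistribution

end
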